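import Fermat.Agent.Corollaries.PIT.Transfer
import Fermat.Agent.Corollaries.HCF.Final
import Fermat.Agent.Corollaries.CFTP.Split

set_option autoImplicit false

/-!
# The principal ideal theorem: assembly
-/

namespace Fermat.Agent.Cor.PIT

open IsDedekindDomain NumberField
open Fermat.Agent.Frob Fermat.Agent.FrobDensity Fermat.Agent.Minkowski
open Fermat.Agent.LT Fermat.Agent.LT.Tower.Fr
open Fermat.Agent.Cor.Diff (GK FrobAt)
open Fermat.Agent.Cor.CFTP
open Fermat.Agent.Cor.HCF (U exists_field_of_artinMap)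

/-- If the prime ideals of `K` become principal in `L`, then all ideals do. -/
theorem isPrincipal_map_of_forall {K L : Type*} [Field K] [NumberField K] [Field L] [NumberField L]
    [Algebra K L]
    (h : ∀ v : HeightOneSpectrum (𝓞 K), (v.asIdeal.map (algebraMap (𝓞 K) (𝓞 L))).IsPrincipal)
    (I : Ideal (𝓞 K)) : (I.map (algebraMap (𝓞 K) (𝓞 L))).IsPrincipal := by
  classical
  refine UniqueFactorizationMonoid.induction_on_prime I ?_ ?_ ?_
  · rw [Ideal.zero_eq_bot, Ideal.map_bot]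
    exact ⟨⟨0, by rw [Submodule.span_zero_singleton]⟩⟩
  · intro J hJ
    rw [Ideal.isUnit_iff.mp hJ, Ideal.map_top]
    exact ⟨⟨1, Ideal.span_singleton_one.symm⟩⟩
  · intro J P _ hP hJ
    rw [Ideal.map_mul]
    obtain ⟨a, ha⟩ := (h ⟨P, Ideal.isPrime_of_prime hP, hP.ne_zero⟩).principal
    obtain ⟨b, hb⟩ := hJ.principal
    refine ⟨⟨a * b, ?_⟩⟩
    change P.map (algebraMap (𝓞 K) (𝓞 L)) = _ at ha
    rw [Ideal.submodule_span_eq] at ha hb ⊢
    rw [ha, hb, Ideal.span_singleton_mul_span_singleton]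

/-- The principal ideal theorem for `K`. -/
def MainStmt : Prop :=
  ∀ (K : Type) [Field K] [NumberField K] [IsTotallyComplex K],
    ∃ (L : Type) (_ : Field L) (_ : NumberField L) (_ : Algebra K L) (_ : IsGalois K L)
      (e : (L ≃ₐ[K] L) ≃* ClassGroup (𝓞 K)),
      (∀ w : HeightOneSpectrum (𝓞 L),
        (w.under (𝓞 K)).asIdeal.ramificationIdx' w.asIdeal = 1) ∧
      (∀ (w : HeightOneSpectrum (𝓞 L)) (σ : L ≃ₐ[K] L), IsArithFrobAt (𝓞 K) σ w.asIdeal →
        e σ = cl (w.under (𝓞 K))) ∧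
      (∀ w : HeightOneSpectrum (𝓞 L), (w.under (𝓞 K)).asIdeal.inertiaDeg' w.asIdeal = 1 ↔
        (w.under (𝓞 K)).asIdeal.IsPrincipal) ∧
      ∀ I : Ideal (𝓞 K), (I.map (algebraMap (𝓞 K) (𝓞 L))).IsPrincipal

/-- The assembly. -/
theorem main_of (hA : ArtinStmt) (hT : TransferStmt) (hH : CommStmt) (hV : VerStmt) :
    MainStmt := by
  intro K _ _ _
  have i₀ : K →ₐ[ℚ] AlgebraicClosure ℚ := IsAlgClosed.lift
  obtain ⟨A, lA, sA, fA⟩ := hA K (i₀ : K →+* AlgebraicClosure ℚ)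
  obtain ⟨L, fL, nL, aL, gL, j, e, hj, hfix, h1, h2, h3⟩ := exists_field_of_artinMap lA sA fA
  refine ⟨L, fL, nL, aL, gL, e, h1, h2, h3, ?_⟩
  generalize (i₀ : K →+* AlgebraicClosure ℚ) = i at A lA sA fA hj hfix
  subst hj
  have hTC : IsTotallyComplex L := isTotallyComplex_of_algebra K L
  obtain ⟨A', hA'⟩ := hA L j
  obtain ⟨hn, hfi, hcH, N, hNn, hNf, hNH, hHc, hφ⟩ := hH K L j A A' ⟨lA, sA, fA⟩ hA'
    fun g => (hfix g).symm
  refine isPrincipal_map_of_forall fun v => ?_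
  obtain ⟨g, hg⟩ := exists_frobAt_all (j.comp (algebraMap K L)) v
  refine hV K L j A' hA' v (fun w hw => h1 w) g hg ?_
  exact hT _ (sub (K := K) j) N hNH hcH hHc _ (A'.comp (toGK (K := K) j)) hφ g

end Fermat.Agent.Cor.PIT
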