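import Fermat.Agent.Corollaries.PIT.Transfer

set_option autoImplicit false

/-!
# The centre and the second commutator subgroup

* `pow_index_mem`: `G` a finite group, `z` in the centre: `z ^ [G : G'] ∈ G''`;
* `pow_index_eq_one`: if `G'` is commutative then `z ^ [G : G'] = 1`.
-/

namespace Fermat.Agent.Cor.PIT

open Subgroup

/-- `G` a finite group, `z` in the centre: `z ^ [G : G']` is in the second commutator subgroup. -/
theorem pow_index_mem {G : Type*} [Group G] [Finite G] {z : G} (hz : z ∈ center G) :
    ∃ h : z ^ (_root_.commutator G).index ∈ _root_.commutator G,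
      (⟨z ^ (_root_.commutator G).index, h⟩ : _root_.commutator G) ∈
        _root_.commutator (_root_.commutator G) := by
  have hz' : ∀ (k : ℕ) (g₀ : G), g₀⁻¹ * z ^ k * g₀ = z ^ k := by
    intro k g₀
    have h1 : g₀ * z ^ k = z ^ k * g₀ := mem_center_iff.mp ((center G).pow_mem hz k) g₀
    rw [mul_assoc, ← h1, inv_mul_cancel_left]
  have h2 := MonoidHom.transfer_eq_pow
    (Abelianization.of : _root_.commutator G →* Abelianization (_root_.commutator G)) z
    fun k g₀ _ => hz' k g₀
  rw [transfer_commutator] at h2
  have h3 := MonoidHom.mem_ker.mpr h2.symm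
  rw [Abelianization.ker_of] at h3
  exact ⟨_, h3⟩

/-- `G` a finite group whose commutator subgroup `G'` is commutative, `z` in the centre:
`z ^ [G : G'] = 1`. -/
theorem pow_index_eq_one {G : Type*} [Group G] [Finite G]
    (hG : ∀ a b : _root_.commutator G, a * b = b * a) {z : G} (hz : z ∈ center G) :
    z ^ (_root_.commutator G).index = 1 := by
  obtain ⟨h, h1⟩ := pow_index_mem hz
  have h2 : _root_.commutator (_root_.commutator G) = ⊥ := by
    rw [eq_bot_iff]
    change ⁅(⊤ : Subgroup (_root_.commutator G)), ⊤⁆ ≤ ⊥
    rw [Subgroup.commutator_le]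
    intro a _ b _
    rw [mem_bot, commutatorElement_eq_one_iff_mul_comm]
    exact hG a b
  rw [h2, mem_bot] at h1
  exact congrArg Subtype.val h1

end Fermat.Agent.Cor.PIT
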