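import Fermat.Agent.Corollaries.PIT.Defs
import Fermat.Agent.CFT.SKummer.Omega
import Mathlib.GroupTheory.FiniteAbelian.Duality

set_option autoImplicit false

/-!
# The principal ideal theorem: the commutator subgroup of `G_K`

(H) `commStmt`: `G_L`, `L` the Hilbert class field of `K`, is generated by the commutators of `G_K`
and the elements all of whose conjugates are in the kernel of the Artin map of `L`.
-/

namespace Fermat.Agent.Cor.PIT

open IsDedekindDomain NumberField
open Fermat.Agent.Frob Fermat.Agent.FrobDensity Fermat.Agent.Minkowski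
open Fermat.Agent.LT Fermat.Agent.LT.Tower.Fr
open Fermat.Agent.Cor.Diff (GK FrobAt)
open Fermat.Agent.Cor.CFTP (Lev cl exists_frobAt_over isFrobeniusAt_inertia_mul)
open Fermat.Agent.Cor.HCF (U)
open scoped commutatorElement Pointwise

/-- inertia elements are in the kernel of the Artin map -/
theorem IsArtin.inertia {K : Type*} [Field K] [NumberField K] {i : K →+* AlgebraicClosure ℚ}
    {A : GK i →* ClassGroup (𝓞 K)} (h : IsArtin i A) {v : HeightOneSpectrum (𝓞 K)}
    {B : ValuationSubring (AlgebraicClosure ℚ)} (hB : Over i B v) {g : GK i}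
    (hg : g.1 ∈ B.inertiaSubgroupIn ℚ) : A g = 1 := by
  obtain ⟨φ, hφ⟩ := exists_frobAt_over hB
  have h1 := h.2.2 v (g * φ) ⟨B, hB, isFrobeniusAt_inertia_mul hg hφ⟩
  have h2 := h.2.2 v φ ⟨B, hB, hφ⟩
  rw [map_mul, h2, mul_eq_right] at h1
  exact h1

/-- a finite extension of `ℚ` is in a finite normal one -/
theorem exists_normal_le (L : IntermediateField ℚ (AlgebraicClosure ℚ)) [FiniteDimensional ℚ L] :
    ∃ E : IntermediateField ℚ (AlgebraicClosure ℚ), FiniteDimensional ℚ E ∧ L ≤ E ∧
      ∀ (g : GQ), ∀ x ∈ E, g x ∈ E := by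
  refine ⟨IntermediateField.normalClosure ℚ L (AlgebraicClosure ℚ), inferInstance,
    IntermediateField.le_normalClosure L, fun g x hx => ?_⟩
  have : Normal ℚ (AlgebraicClosure ℚ) := normal_iff.mpr fun x =>
    ⟨Algebra.IsIntegral.isIntegral x, IsAlgClosed.splits _⟩
  have h1 : Normal ℚ (IntermediateField.normalClosure ℚ L (AlgebraicClosure ℚ)) :=
    normalClosure.normal ℚ L (AlgebraicClosure ℚ)
  have h2 := (IntermediateField.normal_iff_forall_map_le'.mp h1) g
  exact h2 ⟨x, hx, rfl⟩

/-- (H) -/
theorem commStmt (hC : ConvStmt) : CommStmt := by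
  intro K L _ _ _ _ _ _ _ j A A' hA hA' hker
  have hs : sub (K := K) j = A.ker := by
    ext g
    rw [MonoidHom.mem_ker, hker g, Subgroup.mem_subgroupOf]
  have hn : (sub (K := K) j).Normal := by
    rw [hs]
    infer_instance
  have hf : (sub (K := K) j).FiniteIndex := by
    rw [hs]
    infer_instance
  have hc : commutator (GK (j.comp (algebraMap K L))) ≤ sub (K := K) j := by
    rw [hs]
    exact Abelianization.commutator_subset_ker A
  refine ⟨hn, hf, hc, ?_⟩
  set B : sub (K := K) j →* ClassGroup (𝓞 L) := A'.comp (toGK (K := K) j) with hB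
  set M : Subgroup (GK (j.comp (algebraMap K L))) := B.ker.map (sub (K := K) j).subtype with hM
  have hMf : M.FiniteIndex := by
    refine ⟨?_⟩
    rw [hM, Subgroup.index_map_subtype]
    exact mul_ne_zero (Subgroup.FiniteIndex.index_ne_zero) hf.index_ne_zero
  have hmem : ∀ g : GK (j.comp (algebraMap K L)), ∀ h : g ∈ sub (K := K) j,
      A' ⟨g.1, h⟩ = 1 → g ∈ M := fun g h h1 => ⟨⟨g, h⟩, h1, rfl⟩
  have hN : ∀ g : GK (j.comp (algebraMap K L)), g ∈ M.normalCore ↔
      ∀ x : GK (j.comp (algebraMap K L)), x * g * x⁻¹ ∈ M := fun g => Iff.rfl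
  refine ⟨M.normalCore, inferInstance, inferInstance, ?_, ?_, ?_⟩
  · refine (Subgroup.normalCore_le M).trans ?_
    rintro _ ⟨h, -, rfl⟩
    exact h.2
  · -- a character of `G_K` which is trivial on the commutators and on the core
    set N := M.normalCore with hNdef
    have hNn : N.Normal := inferInstance
    have hNf : N.FiniteIndex := inferInstance
    set H : Subgroup (GK (j.comp (algebraMap K L))) := commutator _ ⊔ N with hH
    have hHn : H.Normal := inferInstance
    have hHf : H.FiniteIndex := Subgroup.finiteIndex_of_le (le_sup_right : N ≤ H)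
    intro h hh
    by_contra hne
    have hcomm : ∀ a b : GK (j.comp (algebraMap K L)) ⧸ H, a * b = b * a := by
      intro a b
      induction a using QuotientGroup.induction_on with
      | H a =>
        induction b using QuotientGroup.induction_on with
        | H b =>
          rw [← QuotientGroup.mk_mul, ← QuotientGroup.mk_mul, QuotientGroup.eq]
          refine (le_sup_left : commutator _ ≤ H) ?_
          have h1 : (a * b)⁻¹ * (b * a) = ⁅b⁻¹, a⁻¹⁆ := by
            rw [commutatorElement_def]
            group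
          rw [h1]
          exact Subgroup.commutator_mem_commutator (Subgroup.mem_top _) (Subgroup.mem_top _)
    let _ : CommGroup (GK (j.comp (algebraMap K L)) ⧸ H) :=
      { (inferInstance : Group (GK (j.comp (algebraMap K L)) ⧸ H)) with mul_comm := hcomm }
    have : Finite (GK (j.comp (algebraMap K L)) ⧸ H) := inferInstance
    have hmk : (QuotientGroup.mk' H h) ≠ 1 := by
      intro h1
      exact hne ((QuotientGroup.eq_one_iff h).mp h1)
    obtain ⟨φ, hφ⟩ := CommGroup.exists_apply_ne_one_of_hasEnoughRootsOfUnity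
      (GK (j.comp (algebraMap K L)) ⧸ H) (AlgebraicClosure ℚ) hmk
    have hμN : ∀ g, g ∈ N → φ (QuotientGroup.mk' H g) = 1 := by
      intro g hg
      have h1 : QuotientGroup.mk' H g = 1 :=
        (QuotientGroup.eq_one_iff g).mpr ((le_sup_right : N ≤ H) hg)
      rw [h1, map_one]
    refine hφ (hC K (j.comp (algebraMap K L)) A hA (φ.comp (QuotientGroup.mk' H)) ?_ ?_ h
      ((hker h).mpr hh))
    · -- continuity
      obtain ⟨L₁, hL₁, h1⟩ := hA.1
      obtain ⟨L₂, hL₂, h2⟩ := hA'.1
      obtain ⟨E, hE, hle, hEn⟩ := exists_normal_le (L₁ ⊔ L₂)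
      refine ⟨E, hE, fun g hg => hμN g ((hN g).mpr fun x => ?_)⟩
      have h3 : ∀ y ∈ E, (x * g * x⁻¹).1 y = y := by
        intro y hy
        change x.1 (g.1 (x.1⁻¹ y)) = y
        rw [hg _ (hEn x.1⁻¹ y hy)]
        exact x.1.apply_symm_apply y
      have h4 : A (x * g * x⁻¹) = 1 :=
        h1 _ fun y hy => h3 y (hle ((le_sup_left : L₁ ≤ L₁ ⊔ L₂) hy))
      refine hmem _ ((hker _).mp h4) ?_
      exact h2 _ fun y hy => h3 y (hle ((le_sup_right : L₂ ≤ L₁ ⊔ L₂) hy))
    · -- no ramification
      intro v B' hB' g hg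
      refine hμN g ((hN g).mpr fun x => ?_)
      have h3 : Over (j.comp (algebraMap K L)) (x.1 • B') v := by
        have h4 := hB'.smul x.1
        have h5 : (gh x.1).comp (j.comp (algebraMap K L)) = j.comp (algebraMap K L) :=
          RingHom.ext fun y => x.2 y
        rwa [h5] at h4
      have h4 : (x * g * x⁻¹).1 ∈ (x.1 • B').inertiaSubgroupIn ℚ := by
        have h5 : (x * g * x⁻¹).1 = (x.1⁻¹)⁻¹ * g.1 * x.1⁻¹ := by
          rw [inv_inv]
          rfl
        rw [h5]
        refine Fermat.Agent.CFT.SKummer.conj_mem_inertia ?_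
        rwa [inv_smul_smul]
      have h5 : A (x * g * x⁻¹) = 1 := hA.inertia h3 h4
      refine hmem _ ((hker _).mp h5) ?_
      obtain ⟨p, hp, hpv⟩ := exists_prime_mem v
      obtain ⟨w, hw⟩ := exists_over_of_liesOver j hp (h3.natCast_mem_iff.mp hpv)
      exact hA'.inertia hw h4
  · intro n hnN
    obtain ⟨h, h1, h2⟩ := Subgroup.normalCore_le M hnN
    have h3 : h = n := Subtype.ext h2
    rw [← h3]
    exact h1

end Fermat.Agent.Cor.PIT
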