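import Fermat.Agent.Corollaries.HCF.Defs
import Mathlib.GroupTheory.Transfer

set_option autoImplicit false

/-!
# The principal ideal theorem: statements

`K` totally complex, `L` its Hilbert class field: every ideal of `K` becomes principal in `L`.

`IsArtin i A`: `A : G_K → Cl(K)` is the Artin map (of the maximal unramified abelian extension).
-/

namespace Fermat.Agent.Cor.PIT

open IsDedekindDomain NumberField
open Fermat.Agent.Frob Fermat.Agent.FrobDensity Fermat.Agent.Minkowski
open Fermat.Agent.LT Fermat.Agent.LT.Tower.Fr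
open Fermat.Agent.Cor.Diff (GK FrobAt)
open Fermat.Agent.Cor.CFTP (Lev cl)
open Fermat.Agent.Cor.HCF (U)

/-- `A : G_K → Cl(K)` is continuous and maps all Frobenius elements at all places `v` to the class
of `v`. -/
def IsArtin {K : Type*} [Field K] [NumberField K] (i : K →+* AlgebraicClosure ℚ)
    (A : GK i →* ClassGroup (𝓞 K)) : Prop :=
  Lev A ∧ Function.Surjective A ∧ ∀ v : HeightOneSpectrum (𝓞 K), ∀ g : GK i, FrobAt g v → A g = cl v

/-- All totally complex fields have an Artin map (HCF). -/
def ArtinStmt : Prop :=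
  ∀ (K : Type) [Field K] [NumberField K] [IsTotallyComplex K] (i : K →+* AlgebraicClosure ℚ),
    ∃ A : GK i →* ClassGroup (𝓞 K), IsArtin i A

/-- `ψ` is unramified at all finite places. -/
def Unram {K : Type*} [Field K] [NumberField K] {M : Type*} [Group M]
    (i : K →+* AlgebraicClosure ℚ) (ψ : GK i →* M) : Prop :=
  ∀ (v : HeightOneSpectrum (𝓞 K)) (A : ValuationSubring (AlgebraicClosure ℚ)),
    Over i A v → ∀ g : GK i, g.1 ∈ A.inertiaSubgroupIn ℚ → ψ g = 1

/-- `G_L` as a subgroup of `G_K`. -/
noncomputable abbrev sub {K L : Type*} [Field K] [Field L] [Algebra K L] (j : L →+* AlgebraicClosure ℚ) :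
    Subgroup (GK (j.comp (algebraMap K L))) :=
  (GK j).subgroupOf (GK (j.comp (algebraMap K L)))

/-- the identification of `sub j` with `G_L` -/
noncomputable def toGK {K L : Type*} [Field K] [Field L] [Algebra K L] (j : L →+* AlgebraicClosure ℚ) :
    sub (K := K) j →* GK j where
  toFun h := ⟨h.1.1, h.2⟩
  map_one' := rfl
  map_mul' _ _ := rfl

/-- **(T) Furtwängler's theorem on the transfer.** -/
def TransferStmt : Prop :=
  ∀ (G : Type) [Group G] (H N : Subgroup G) [H.Normal] [N.Normal] [H.FiniteIndex] [N.FiniteIndex],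
    N ≤ H → commutator G ≤ H → H ≤ commutator G ⊔ N →
    ∀ (A : Type) [CommGroup A] (φ : H →* A), (∀ n : H, n.1 ∈ N → φ n = 1) →
      ∀ g : G, MonoidHom.transfer φ g = 1

/-- **(C) Reciprocity for unramified characters of finite order**: the kernel of the Artin map is
in the kernel of all unramified continuous characters. -/
def ConvStmt : Prop :=
  ∀ (K : Type) [Field K] [NumberField K] [IsTotallyComplex K] (i : K →+* AlgebraicClosure ℚ)
    (A : GK i →* ClassGroup (𝓞 K)), IsArtin i A → ∀ μ : GK i →* U, Lev μ → Unram i μ →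
      ∀ g, A g = 1 → μ g = 1

/-- **(H)** `G_L` is the commutator subgroup of `G_K` modulo the core of the kernel of the Artin
map of `L`. -/
def CommStmt : Prop :=
  ∀ (K L : Type) [Field K] [NumberField K] [IsTotallyComplex K] [Field L] [NumberField L]
    [Algebra K L] [IsGalois K L] (j : L →+* AlgebraicClosure ℚ)
    (A : GK (j.comp (algebraMap K L)) →* ClassGroup (𝓞 K)) (A' : GK j →* ClassGroup (𝓞 L)),
    IsArtin (j.comp (algebraMap K L)) A → IsArtin j A' →
    (∀ g : GK (j.comp (algebraMap K L)), A g = 1 ↔ g.1 ∈ GK j) →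
    (sub (K := K) j).Normal ∧ (sub (K := K) j).FiniteIndex ∧
      commutator (GK (j.comp (algebraMap K L))) ≤ sub (K := K) j ∧
      ∃ N : Subgroup (GK (j.comp (algebraMap K L))), N.Normal ∧ N.FiniteIndex ∧
        N ≤ sub (K := K) j ∧
        sub (K := K) j ≤ commutator (GK (j.comp (algebraMap K L))) ⊔ N ∧
        ∀ n : sub (K := K) j, n.1 ∈ N → A' (toGK j n) = 1

/-- **(V)** the transfer of the Frobenius elements at `v` is the class of `v 𝓞_L`. -/
def VerStmt : Prop :=
  ∀ (K L : Type) [Field K] [NumberField K] [Field L] [NumberField L]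
    [Algebra K L] [IsGalois K L] (j : L →+* AlgebraicClosure ℚ) (A' : GK j →* ClassGroup (𝓞 L)),
    IsArtin j A' → ∀ [(sub (K := K) j).FiniteIndex] (v : HeightOneSpectrum (𝓞 K)),
    (∀ w : HeightOneSpectrum (𝓞 L), w.under (𝓞 K) = v → LT.NV.edeg K w = 1) →
    ∀ g : GK (j.comp (algebraMap K L)), FrobAt g v →
      MonoidHom.transfer (A'.comp (toGK (K := K) j)) g = 1 →
      (v.asIdeal.map (algebraMap (𝓞 K) (𝓞 L))).IsPrincipal

end Fermat.Agent.Cor.PIT
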