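import Fermat.Agent.Corollaries.Ambi.UnrHil
import Fermat.Agent.Corollaries.HCF.Final
import Fermat.Agent.Corollaries.PIT.Defs

set_option autoImplicit false

/-!
# Reciprocity for unramified characters of finite order

The field of a continuous unramified character is abelian and unramified, so it is contained in the
Hilbert class field (`Ambi.nonempty_algHom_of_isPrincipal`).
-/

namespace Fermat.Agent.Cor.PIT

open IsDedekindDomain NumberField
open Fermat.Agent.Frob Fermat.Agent.FrobDensity Fermat.Agent.Minkowski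
open Fermat.Agent.LT Fermat.Agent.LT.Tower.Fr
open Fermat.Agent.Cor.Diff (GK FrobAt)
open Fermat.Agent.Cor.CFTP (Lev cl restrHom restrHom_apply restrHom_eq_one_iff
  exists_field_of_surjective edeg_eq_one_of_inertia)
open Fermat.Agent.Cor.HCF (U)
open Fermat.Agent.LT.NV (edeg fdeg)

/-- the field of an unramified character of finite order is abelian and unramified -/
theorem exists_abelian_field {K : Type} [Field K] [NumberField K] {i : K →+* AlgebraicClosure ℚ}
    {μ : GK i →* U} (lμ : Lev μ) (hμ : Unram i μ) :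
    ∃ (F : Type) (_ : Field F) (_ : NumberField F) (_ : Algebra K F) (_ : IsAbelianGalois K F)
      (j : F →+* AlgebraicClosure ℚ), j.comp (algebraMap K F) = i ∧
      (∀ g : GK i, g.1 ∈ GK j ↔ μ g = 1) ∧
      ∀ w : HeightOneSpectrum (𝓞 F), (w.under (𝓞 K)).asIdeal.ramificationIdx' w.asIdeal = 1 := by
  have lμ' : Lev μ.rangeRestrict := by
    obtain ⟨E, hE, h⟩ := lμ
    exact ⟨E, hE, fun g hg => Subtype.ext (h g hg)⟩
  obtain ⟨F, fF, nF, aF, gF, j, e, hj, he⟩ :=
    exists_field_of_surjective i μ.rangeRestrict lμ' μ.rangeRestrict_surjective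
  subst hj
  have hres : ∀ g : GK (j.comp (algebraMap K F)), e (restrHom j g) = μ.rangeRestrict g := by
    intro g
    have h1 : e.symm (μ.rangeRestrict g) = restrHom j g := by
      ext x
      apply j.injective
      rw [he, restrHom_apply]
    rw [← h1, MulEquiv.apply_symm_apply]
  have hfix : ∀ g : GK (j.comp (algebraMap K F)), g.1 ∈ GK j ↔ μ g = 1 := by
    intro g
    rw [← restrHom_eq_one_iff, ← e.map_eq_one_iff, hres]
    exact ⟨fun h => congrArg Subtype.val h, fun h => Subtype.ext h⟩
  have hab : IsMulCommutative (F ≃ₐ[K] F) := ⟨⟨fun a b => e.injective (by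
    rw [map_mul, map_mul, mul_comm])⟩⟩
  refine ⟨F, fF, nF, aF, { toIsGalois := gF, is_comm := hab.is_comm }, j, rfl, hfix, fun w => ?_⟩
  obtain ⟨q, A, hq, hAq, hA⟩ := exists_over j w
  refine edeg_eq_one_of_inertia (K := K) hA fun τ hτ hτK => ?_
  exact (hfix ⟨τ, hτK⟩).mpr (hμ _ A hA.under ⟨τ, hτK⟩ hτ)

/-- totally complex fields are unramified at infinity -/
theorem unramifiedAtInfinite {K F : Type*} [Field K] [NumberField K] [IsTotallyComplex K] [Field F]
    [NumberField F] [Algebra K F] : IsUnramifiedAtInfinitePlaces K F := by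
  constructor
  intro w
  rw [InfinitePlace.isUnramified_iff]
  exact Or.inr (IsTotallyComplex.isComplex _)

/-- **(C)** -/
theorem convStmt : ConvStmt := by
  intro K _ _ _ i A hA μ lμ hμ g hg
  obtain ⟨M, fM, nM, aM, gM, jM, e, hj, hfix, hunr, hfrob, hpr⟩ :=
    HCF.exists_field_of_artinMap hA.1 hA.2.1 hA.2.2
  obtain ⟨F, fF, nF, aF, abF, j, hj', hfix', hunr'⟩ := exists_abelian_field lμ hμ
  have hinf : IsUnramifiedAtInfinitePlaces K F := unramifiedAtInfinite
  obtain ⟨f⟩ := Ambi.nonempty_algHom_of_isPrincipal (K := K) (L := F) (M := M) (by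
    rintro v ⟨w, rfl, hw⟩
    refine (hpr w).mp ?_
    have h1 := (ChebK.absNorm_eq_iff (K := K) w).mp hw
    have h2 : w.asIdeal.LiesOver (w.under (𝓞 K)).asIdeal := ⟨rfl⟩
    have h3 := (w.under (𝓞 K)).isMaximal
    have h4 := w.isMaximal
    rw [Ideal.inertiaDeg'_eq_inertiaDeg]
    exact h1) hunr'
  have h1 : g.1 ∈ GK jM := (hfix g).mpr hg
  rw [← hfix']
  intro x
  obtain ⟨σ, hσ⟩ := Fermat.Agent.LT.Tower.Fr.exists_extend (jM.comp (f : F →+* M)) j
  have hσ' : ∀ y : F, σ (jM (f y)) = j y := fun y => RingHom.congr_fun hσ y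
  have hK : ∀ y : K, jM (f (algebraMap K F y)) = i y := by
    intro y
    rw [AlgHom.commutes]
    exact RingHom.congr_fun hj y
  have hσK : σ ∈ GK ((jM.comp (f : F →+* M)).comp (algebraMap K F)) := by
    intro y
    change σ (jM (f (algebraMap K F y))) = jM (f (algebraMap K F y))
    rw [hσ', hK]
    exact RingHom.congr_fun hj' y
  have h2 := restrHom_apply (jM.comp (f : F →+* M)) ⟨σ, hσK⟩ x
  have h3 : j x = jM (f (restrHom (jM.comp (f : F →+* M)) ⟨σ, hσK⟩ x)) := by
    rw [← hσ']
    exact h2.symm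
  rw [h3]
  exact h1 _

end Fermat.Agent.Cor.PIT
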