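import Mathlib.GroupTheory.Transfer
import Mathlib.GroupTheory.FiniteAbelian.Basic
import Mathlib.GroupTheory.Abelianization.Defs
import Mathlib.LinearAlgebra.Matrix.Adjugate
import Mathlib.LinearAlgebra.Matrix.Determinant.Basic
import Mathlib.RepresentationTheory.Basic
import Mathlib.RingTheory.Ideal.Operations

set_option autoImplicit false

/-!
# Crossed homomorphisms and Furtwängler's theorem

`π : G → Q` a surjective homomorphism onto a finite abelian group, `D : G → M` a crossed
homomorphism to a `ℤ[Q]`-module, zero on a normal subgroup `N` of finite index with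
`ker π = [G, G] N`: then `∑ q, q • D g = 0` for all `g`.
-/

namespace Fermat.Agent.Cor.PIT

open MonoidAlgebra

/-- generators of a finite abelian group with the product of the exponents equal to the order -/
theorem exists_gens (Q : Type*) [CommGroup Q] [Finite Q] :
    ∃ (ι : Type) (_ : Fintype ι) (q : ι → Q) (m : ι → ℕ), (∀ i, q i ^ m i = 1) ∧
      Subgroup.closure (Set.range q) = ⊤ ∧ ∏ i, m i = Nat.card Q := by
  classical
  obtain ⟨ι, _, n, hn, ⟨e⟩⟩ := CommGroup.equiv_prod_multiplicative_zmod_of_finite Q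
  refine ⟨ι, inferInstance, fun i => e.symm (Pi.mulSingle i (Multiplicative.ofAdd 1)), n, ?_, ?_,
    ?_⟩
  · intro i
    have h1 : (Multiplicative.ofAdd (1 : ZMod (n i))) ^ n i = 1 := by
      rw [← ofAdd_nsmul, nsmul_one, ZMod.natCast_self, ofAdd_zero]
    rw [← map_pow, ← Pi.mulSingle_pow, h1, Pi.mulSingle_one, map_one]
  · rw [eq_top_iff]
    intro x _
    have hx : x = e.symm (∏ i, Pi.mulSingle i (e x i)) := by
      rw [Finset.univ_prod_mulSingle, MulEquiv.symm_apply_apply]
    rw [hx, map_prod]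
    refine Subgroup.prod_mem _ fun i _ => ?_
    have : NeZero (n i) := ⟨(lt_trans zero_lt_one (hn i)).ne'⟩
    have hk : (Multiplicative.ofAdd (1 : ZMod (n i))) ^ (e x i).toAdd.val = e x i := by
      rw [← ofAdd_nsmul, nsmul_one, ZMod.natCast_val, ZMod.cast_id, ofAdd_toAdd]
    rw [← hk, Pi.mulSingle_pow, map_pow]
    exact Subgroup.pow_mem _ (Subgroup.subset_closure (Set.mem_range.mpr ⟨i, rfl⟩)) _
  · rw [Nat.card_congr e.toEquiv, Nat.card_pi]
    refine Finset.prod_congr rfl fun i _ => ?_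
    exact (Nat.card_zmod (n i)).symm

section Crossed

/-- the augmentation of `ℤ[Q]` -/
noncomputable def aug (Q : Type*) [CommGroup Q] : MonoidAlgebra ℤ Q →+* ℤ :=
  (MonoidAlgebra.lift ℤ ℤ Q (1 : Q →* ℤ)).toRingHom

lemma aug_of {Q : Type*} [CommGroup Q] (q : Q) : aug Q (of ℤ Q q) = 1 :=
  MonoidAlgebra.lift_of _ _

variable {G Q : Type*} [Group G] [CommGroup Q] {π : G →* Q} {M : Type*} [AddCommGroup M]
  [Module (MonoidAlgebra ℤ Q) M]

/-- crossed homomorphisms -/
def IsCr (π : G →* Q) (D : G → M) : Prop := ∀ g h, D (g * h) = of ℤ Q (π h) • D g + D h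

variable {D : G → M}

lemma IsCr.map_one (hD : IsCr π D) : D 1 = 0 := by
  have h := hD 1 1
  rw [mul_one, _root_.map_one, _root_.map_one, one_smul] at h
  exact (left_eq_add.mp h)

lemma IsCr.map_inv (hD : IsCr π D) (g : G) : D g⁻¹ = -(of ℤ Q (π g⁻¹) • D g) := by
  have h := hD g g⁻¹
  rw [mul_inv_cancel, hD.map_one] at h
  exact (neg_eq_of_add_eq_zero_right h.symm).symm

/-- **The determinant of the relations.** -/
theorem exists_det [Finite Q] (hπ : Function.Surjective π) (N : Subgroup G) [N.FiniteIndex]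
    (hN : N ≤ π.ker) (hc : π.ker ≤ commutator G ⊔ N) (hD : IsCr π D) (hDN : ∀ n ∈ N, D n = 0) :
    ∃ μ : MonoidAlgebra ℤ Q, aug Q μ = Nat.card Q ∧ ∀ g, μ • D g = 0 := by
  classical
  obtain ⟨ι, _, q, m, hqm, hq, hm⟩ := exists_gens Q
  choose y hy using fun i => hπ (q i)
  have hfin : Fintype (G ⧸ N) := N.fintypeQuotientOfFiniteIndex
  let x : ι ⊕ (G ⧸ N) → G := Sum.elim y (fun t => if t.out ∈ π.ker then t.out else 1)
  let m' : ι ⊕ (G ⧸ N) → ℕ := Sum.elim m (fun _ => 1)
  have hx1 : ∀ t, x (Sum.inr t) ∈ π.ker := by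
    intro t
    change (if t.out ∈ π.ker then t.out else 1) ∈ π.ker
    split_ifs with h
    · exact h
    · exact π.ker.one_mem
  have hxm : ∀ j, x j ^ m' j ∈ π.ker := by
    rintro (i | t)
    · change y i ^ m i ∈ π.ker
      rw [MonoidHom.mem_ker, map_pow, hy, hqm]
    · change x (Sum.inr t) ^ 1 ∈ π.ker
      rw [pow_one]
      exact hx1 t
  let W : Submodule (MonoidAlgebra ℤ Q) M :=
    Submodule.span (MonoidAlgebra ℤ Q) (Set.range fun j => D (x j))
  have hxW : ∀ j, D (x j) ∈ W := fun j => Submodule.subset_span ⟨j, rfl⟩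
  let S : Subgroup G :=
    { carrier := {g | D g ∈ W}
      one_mem' := by
        rw [Set.mem_ofPred_eq, hD.map_one]
        exact W.zero_mem
      mul_mem' := fun {a b} ha hb => by
        rw [Set.mem_ofPred_eq, hD a b]
        exact W.add_mem (W.smul_mem _ ha) hb
      inv_mem' := fun {a} ha => by
        rw [Set.mem_ofPred_eq, hD.map_inv]
        exact W.neg_mem (W.smul_mem _ ha) }
  have hSker : π.ker ≤ S := by
    intro h hh
    have h1 : ((h : G ⧸ N)).out⁻¹ * h ∈ N :=
      QuotientGroup.eq.mp (QuotientGroup.out_eq' (h : G ⧸ N))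
    have h2 : ((h : G ⧸ N)).out ∈ π.ker := by
      have h3 := π.ker.mul_mem hh (π.ker.inv_mem (hN h1))
      rwa [mul_inv_rev, inv_inv, mul_inv_cancel_left] at h3
    have h3 : D h = D (x (Sum.inr (h : G ⧸ N))) := by
      have h4 : x (Sum.inr (h : G ⧸ N)) = ((h : G ⧸ N)).out := if_pos h2
      rw [h4]
      have h5 := hD ((h : G ⧸ N)).out (((h : G ⧸ N)).out⁻¹ * h)
      rw [mul_inv_cancel_left, hDN _ h1, add_zero, MonoidHom.mem_ker.mp (hN h1),
        _root_.map_one, one_smul] at h5
      exact h5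
    change D h ∈ W
    rw [h3]
    exact hxW _
  have hStop : ∀ g, g ∈ S := by
    intro g
    have h1 : Subgroup.closure (Set.range q) ≤ S.map π := by
      rw [Subgroup.closure_le]
      rintro _ ⟨i, rfl⟩
      exact ⟨y i, hxW (Sum.inl i), hy i⟩
    rw [hq] at h1
    obtain ⟨s, hs, hsg⟩ := h1 (Subgroup.mem_top (π g))
    have h2 : s⁻¹ * g ∈ S := hSker (by
      rw [MonoidHom.mem_ker, map_mul, _root_.map_inv, hsg, inv_mul_cancel])
    have h3 := S.mul_mem hs h2
    rwa [mul_inv_cancel_left] at h3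
  let I : Ideal (MonoidAlgebra ℤ Q) := RingHom.ker (aug Q)
  let f : G →* Multiplicative (M ⧸ (I • W)) :=
    { toFun := fun g => Multiplicative.ofAdd (Submodule.Quotient.mk (D g))
      map_one' := by rw [hD.map_one, Submodule.Quotient.mk_zero, ofAdd_zero]
      map_mul' := fun g h => by
        rw [← ofAdd_add, ← Submodule.Quotient.mk_add]
        congr 1
        rw [Submodule.Quotient.eq, hD g h]
        have h1 : of ℤ Q (π h) • D g + D h - (D g + D h) = (of ℤ Q (π h) - 1) • D g := by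
          rw [sub_smul, one_smul]
          abel
        rw [h1]
        refine Submodule.smul_mem_smul ?_ (hStop g)
        rw [RingHom.mem_ker, map_sub, aug_of, _root_.map_one, sub_self] }
  have hf : commutator G ⊔ N ≤ f.ker := by
    refine sup_le (Abelianization.commutator_subset_ker f) fun n hn => ?_
    rw [MonoidHom.mem_ker]
    change Multiplicative.ofAdd (Submodule.Quotient.mk (D n)) = 1
    rw [hDN n hn, Submodule.Quotient.mk_zero, ofAdd_zero]
  have hrel : ∀ j, (m' j : MonoidAlgebra ℤ Q) • D (x j) ∈ I • W := by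
    intro j
    have h1 : f (x j ^ m' j) = 1 := MonoidHom.mem_ker.mp (hf (hc (hxm j)))
    rw [map_pow] at h1
    have h2 : (m' j) • (Submodule.Quotient.mk (p := I • W) (D (x j))) = 0 := h1
    rw [← Submodule.Quotient.mk_smul, Submodule.Quotient.mk_eq_zero] at h2
    rwa [Nat.cast_smul_eq_nsmul]
  have hrel' : ∀ j, ∃ c : ι ⊕ (G ⧸ N) → MonoidAlgebra ℤ Q, (∀ k, aug Q (c k) = 0) ∧
      ∑ k, c k • D (x k) = (m' j : MonoidAlgebra ℤ Q) • D (x j) := by
    intro j
    obtain ⟨a, ha, hsum⟩ := (Submodule.mem_ideal_smul_span_iff_exists_sum I (fun j => D (x j))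
      _).mp (hrel j)
    refine ⟨a, fun k => ha k, ?_⟩
    rw [← hsum]
    exact (Finsupp.sum_fintype a (fun k c => c • D (x k)) fun k => zero_smul _ _).symm
  choose c hc0 hcs using hrel'
  let X : Matrix (ι ⊕ (G ⧸ N)) (ι ⊕ (G ⧸ N)) (MonoidAlgebra ℤ Q) :=
    Matrix.diagonal (fun j => (m' j : MonoidAlgebra ℤ Q)) - Matrix.of c
  have hX : ∀ j, ∑ k, X j k • D (x k) = 0 := by
    intro j
    have h1 : ∀ k, X j k = (Matrix.diagonal (fun j => (m' j : MonoidAlgebra ℤ Q)) j k) - c j k :=
      fun k => rfl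
    simp_rw [h1, sub_smul, Finset.sum_sub_distrib, hcs]
    rw [sub_eq_zero, Finset.sum_eq_single j]
    · rw [Matrix.diagonal_apply_eq]
    · intro k _ hk
      rw [Matrix.diagonal_apply_ne _ hk.symm, zero_smul]
    · intro h
      exact absurd (Finset.mem_univ j) h
  have hdet : ∀ k, X.det • D (x k) = 0 := by
    intro k
    have h1 : X.det • D (x k) = ∑ l, (X.adjugate * X) k l • D (x l) := by
      rw [Matrix.adjugate_mul, Finset.sum_eq_single k]
      · rw [Matrix.smul_apply, Matrix.one_apply_eq, smul_eq_mul, mul_one]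
      · intro l _ hl
        rw [Matrix.smul_apply, Matrix.one_apply_ne hl.symm, smul_zero, zero_smul]
      · intro h
        exact absurd (Finset.mem_univ k) h
    rw [h1]
    simp_rw [Matrix.mul_apply, Finset.sum_smul]
    rw [Finset.sum_comm]
    refine Finset.sum_eq_zero fun j _ => ?_
    simp_rw [mul_smul]
    rw [← Finset.smul_sum, hX, smul_zero]
  refine ⟨X.det, ?_, fun g => ?_⟩
  · rw [RingHom.map_det]
    have h1 : (aug Q).mapMatrix X = Matrix.diagonal fun j => ((m' j : ℕ) : ℤ) := by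
      ext j k
      rw [RingHom.mapMatrix_apply, Matrix.map_apply]
      change aug Q ((Matrix.diagonal (fun j => (m' j : MonoidAlgebra ℤ Q)) j k) - c j k) = _
      rw [map_sub, hc0, sub_zero]
      by_cases h : j = k
      · subst h
        rw [Matrix.diagonal_apply_eq, Matrix.diagonal_apply_eq, map_natCast]
      · rw [Matrix.diagonal_apply_ne _ h, Matrix.diagonal_apply_ne _ h, map_zero]
    rw [h1, Matrix.det_diagonal, ← Nat.cast_prod]
    congr 1
    rw [Fintype.prod_sum_type]
    change (∏ i, m i) * (∏ _t : G ⧸ N, 1) = _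
    rw [Finset.prod_const_one, mul_one, hm]
  · have h1 : W ≤ LinearMap.ker (LinearMap.lsmul (MonoidAlgebra ℤ Q) M X.det) := by
      rw [Submodule.span_le]
      rintro _ ⟨k, rfl⟩
      exact hdet k
    exact h1 (hStop g)

/-- **The norm kills crossed homomorphisms.** -/
theorem norm_smul_eq_zero [Fintype Q] (hπ : Function.Surjective π) (N : Subgroup G)
    [N.FiniteIndex] (hN : N ≤ π.ker) (hc : π.ker ≤ commutator G ⊔ N) (hD : IsCr π D)
    (hDN : ∀ n ∈ N, D n = 0) (g : G) : (∑ q : Q, of ℤ Q q) • D g = 0 := by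
  classical
  let D' : G → M × MonoidAlgebra ℤ Q := fun g => (D g, of ℤ Q (π g) - 1)
  have hD' : IsCr π D' := by
    intro g h
    refine Prod.ext (hD g h) ?_
    change of ℤ Q (π (g * h)) - 1 = of ℤ Q (π h) * (of ℤ Q (π g) - 1) + (of ℤ Q (π h) - 1)
    rw [map_mul, map_mul]
    ring
  obtain ⟨μ, hμ, hμD⟩ := exists_det hπ N hN hc hD' (fun n hn => Prod.ext (hDN n hn) (by
    change of ℤ Q (π n) - 1 = 0
    rw [MonoidHom.mem_ker.mp (hN hn), _root_.map_one, sub_self]))
  have h1 : μ • D g = 0 := congrArg Prod.fst (hμD g)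
  have h2 : ∀ q : Q, μ * of ℤ Q q = μ := by
    intro q
    obtain ⟨h, rfl⟩ := hπ q
    have h3 : μ * (of ℤ Q (π h) - 1) = 0 := congrArg Prod.snd (hμD h)
    rwa [mul_sub, mul_one, sub_eq_zero] at h3
  set N' : MonoidAlgebra ℤ Q := ∑ q : Q, of ℤ Q q with hN'
  have h3 : μ * N' = (Nat.card Q : MonoidAlgebra ℤ Q) * μ := by
    rw [hN', Finset.mul_sum]
    simp_rw [h2]
    rw [Finset.sum_const, Finset.card_univ, nsmul_eq_mul, Nat.card_eq_fintype_card]
  have h4 : ∀ q : Q, of ℤ Q q * N' = N' := by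
    intro q
    rw [hN', Finset.mul_sum]
    simp_rw [← map_mul]
    exact Fintype.sum_equiv (Equiv.mulLeft q) _ _ fun _ => rfl
  have h5 : ∀ a : MonoidAlgebra ℤ Q, a * N' = ((aug Q a : ℤ) : MonoidAlgebra ℤ Q) * N' := by
    intro a
    induction a using MonoidAlgebra.induction_on with
    | of q => rw [h4, aug_of, Int.cast_one, one_mul]
    | add a b ha hb => rw [add_mul, ha, hb, map_add, Int.cast_add, add_mul]
    | smul r a ha =>
      rw [smul_mul_assoc, ha, zsmul_eq_mul, zsmul_eq_mul, map_mul, map_intCast, Int.cast_mul,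
        Int.cast_id, mul_assoc]
  have h6 : (Nat.card Q : MonoidAlgebra ℤ Q) * μ = (Nat.card Q : MonoidAlgebra ℤ Q) * N' := by
    rw [← h3, h5, hμ, Int.cast_natCast]
  have h7 : μ = N' := by
    have h8 : (Nat.card Q : ℤ) ≠ 0 := by
      exact_mod_cast Nat.card_pos.ne'
    ext q
    have h9 := congrArg (fun a : MonoidAlgebra ℤ Q => a.coeff q) h6
    simp only [← nsmul_eq_mul] at h9
    change (Nat.card Q) • (μ.coeff q) = (Nat.card Q) • (N'.coeff q) at h9
    rw [nsmul_eq_mul, nsmul_eq_mul] at h9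
    exact mul_left_cancel₀ h8 h9
  rw [← h7]
  exact h1

end Crossed

end Fermat.Agent.Cor.PIT
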