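import Fermat.Agent.Corollaries.PIT.Assemble
import Fermat.Agent.Corollaries.PIT.Conv

set_option autoImplicit false

/-!
# The principal ideal theorem for every field with the properties of the Hilbert class field
-/

namespace Fermat.Agent.Cor.PIT

open IsDedekindDomain NumberField

/-- Principal ideals are transported by `K`-embeddings which are surjective. -/
theorem isPrincipal_map_of_equiv {K L M : Type*} [Field K] [Field L] [Field M] [Algebra K L]
    [Algebra K M] (f : L ≃ₐ[K] M) (I : Ideal (𝓞 K))
    (h : (I.map (algebraMap (𝓞 K) (𝓞 M))).IsPrincipal) :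
    (I.map (algebraMap (𝓞 K) (𝓞 L))).IsPrincipal := by
  let F : 𝓞 M →+* 𝓞 L := RingOfIntegers.mapRingHom (f.symm : M →+* L)
  have hF : F.comp (algebraMap (𝓞 K) (𝓞 M)) = algebraMap (𝓞 K) (𝓞 L) := by
    ext x
    change f.symm (algebraMap K M (x : K)) = algebraMap K L (x : K)
    exact f.symm.commutes _
  rw [← hF, ← Ideal.map_map]
  obtain ⟨a, ha⟩ := h.principal
  rw [Ideal.submodule_span_eq] at ha
  refine ⟨⟨F a, ?_⟩⟩
  rw [ha, Ideal.map_span, Set.image_singleton, Ideal.submodule_span_eq]

/-- **The principal ideal theorem**, intrinsic form: `L / K` abelian, unramified at the finite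
places, of degree `h(K)`. -/
theorem isPrincipal_map_of_main (hM : MainStmt) {K : Type} [Field K] [NumberField K]
    [IsTotallyComplex K] {L : Type*} [Field L] [NumberField L] [Algebra K L] [IsAbelianGalois K L]
    (h : ∀ w : HeightOneSpectrum (𝓞 L), (w.asIdeal.under (𝓞 K)).ramificationIdx' w.asIdeal = 1)
    (hdeg : Module.finrank K L = classNumber K) (I : Ideal (𝓞 K)) :
    (I.map (algebraMap (𝓞 K) (𝓞 L))).IsPrincipal := by
  obtain ⟨M, fM, nM, aM, gM, e, hunr, hfrob, hpr, hmap⟩ := hM K
  have hinf : IsUnramifiedAtInfinitePlaces K L := unramifiedAtInfinite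
  obtain ⟨f⟩ := Ambi.nonempty_algHom_of_isPrincipal (K := K) (L := L) (M := M) (by
    rintro v ⟨w, rfl, hw⟩
    refine (hpr w).mp ?_
    have h1 := (ChebK.absNorm_eq_iff (K := K) w).mp hw
    have h2 : w.asIdeal.LiesOver (w.under (𝓞 K)).asIdeal := ⟨rfl⟩
    have h3 := (w.under (𝓞 K)).isMaximal
    have h4 := w.isMaximal
    rw [Ideal.inertiaDeg'_eq_inertiaDeg]
    exact h1) h
  have h1 : Module.finrank K M = classNumber K := by
    rw [← IsGalois.card_aut_eq_finrank, Nat.card_congr e.toEquiv, Nat.card_eq_fintype_card]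
    rfl
  have h2 : Function.Bijective f := by
    refine ⟨f.toRingHom.injective, ?_⟩
    have h3 : Function.Injective f.toLinearMap := f.toRingHom.injective
    exact (LinearMap.injective_iff_surjective_of_finrank_eq_finrank (by rw [h1, hdeg])).mp h3
  exact isPrincipal_map_of_equiv (AlgEquiv.ofBijective f h2) I (hmap I)

end Fermat.Agent.Cor.PIT
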