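import Fermat.Agent.Corollaries.PIT.Defs
import Fermat.Agent.LT.Psi.Kummer

set_option autoImplicit false

/-!
# The principal ideal theorem: the ideal `v 𝓞_L` of an unramified place

`isPrincipal_map_of`: if the product of the classes of the places above `v` is trivial and `v` is
unramified, then `v 𝓞_L` is principal.
-/

namespace Fermat.Agent.Cor.PIT

open IsDedekindDomain NumberField

theorem map_eq_prod {K L : Type*} [Field K] [NumberField K] [Field L] [NumberField L]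
    [Algebra K L] (v : HeightOneSpectrum (𝓞 K))
    (h : ∀ w : HeightOneSpectrum (𝓞 L), w.under (𝓞 K) = v → LT.NV.edeg K w = 1) :
    v.asIdeal.map (algebraMap (𝓞 K) (𝓞 L)) =
      ∏ w ∈ (LT.Psi.finite_under (L := L) v).toFinset, w.asIdeal := by
  classical
  have hv : v.asIdeal ≠ 0 := v.ne_bot
  have : v.asIdeal.IsMaximal := v.isMaximal
  rw [Ideal.map_algebraMap_eq_finsetProd_pow (R := 𝓞 L) hv]
  symm
  refine Finset.prod_bij (fun w _ => w.asIdeal) ?_ ?_ ?_ ?_
  · intro w hw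
    have hw' : w.under (𝓞 K) = v := by simpa using hw
    rw [Set.mem_toFinset]
    refine ⟨w.isPrime, ⟨?_⟩⟩
    rw [← hw']
    rfl
  · intro w _ w' _ hww
    exact HeightOneSpectrum.ext hww
  · intro P hP
    rw [Set.mem_toFinset] at hP
    have := hP.1
    have := hP.2
    have hP0 : P ≠ ⊥ := Ideal.ne_bot_of_liesOver_of_ne_bot v.ne_bot P
    refine ⟨⟨P, hP.1, hP0⟩, ?_, rfl⟩
    have h1 : (⟨P, hP.1, hP0⟩ : HeightOneSpectrum (𝓞 L)).under (𝓞 K) = v :=
      HeightOneSpectrum.ext (hP.2.over).symm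
    simpa using h1
  · intro w hw
    have hw' : w.under (𝓞 K) = v := by simpa using hw
    have h1 := h w hw'
    unfold LT.NV.edeg at h1
    rw [hw'] at h1
    have hlo : w.asIdeal.LiesOver v.asIdeal := ⟨by rw [← hw']; rfl⟩
    have hpr : w.asIdeal.IsPrime := w.isPrime
    rw [← Ideal.ramificationIdx'_eq_ramificationIdx v.asIdeal w.asIdeal v.ne_bot, h1, pow_one]

theorem isPrincipal_map_of {K L : Type*} [Field K] [NumberField K] [Field L] [NumberField L]
    [Algebra K L] (v : HeightOneSpectrum (𝓞 K))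
    (h : ∀ w : HeightOneSpectrum (𝓞 L), w.under (𝓞 K) = v → LT.NV.edeg K w = 1)
    (hp : ∏ w ∈ (LT.Psi.finite_under (L := L) v).toFinset, CFTP.cl w = 1) :
    (v.asIdeal.map (algebraMap (𝓞 K) (𝓞 L))).IsPrincipal := by
  classical
  have hmem : ∀ w : HeightOneSpectrum (𝓞 L), w.asIdeal ∈ nonZeroDivisors (Ideal (𝓞 L)) :=
    fun w => mem_nonZeroDivisors_of_ne_zero w.ne_bot
  have h1 : ∏ w ∈ (LT.Psi.finite_under (L := L) v).toFinset, CFTP.cl w =
      ClassGroup.mk0 (∏ w ∈ (LT.Psi.finite_under (L := L) v).toFinset,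
        (⟨w.asIdeal, hmem w⟩ : nonZeroDivisors (Ideal (𝓞 L)))) := by
    rw [map_prod]
    rfl
  rw [h1] at hp
  have h3 : ((∏ w ∈ (LT.Psi.finite_under (L := L) v).toFinset,
      (⟨w.asIdeal, hmem w⟩ : nonZeroDivisors (Ideal (𝓞 L))) : nonZeroDivisors (Ideal (𝓞 L))) :
        Ideal (𝓞 L)) = v.asIdeal.map (algebraMap (𝓞 K) (𝓞 L)) := by
    rw [map_eq_prod v h, Submonoid.coe_finsetProd]
  generalize (∏ w ∈ (LT.Psi.finite_under (L := L) v).toFinset,
      (⟨w.asIdeal, hmem w⟩ : nonZeroDivisors (Ideal (𝓞 L)))) = I at hp h3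
  have h2 : (I : Ideal (𝓞 L)).IsPrincipal := (ClassGroup.mk0_eq_one_iff I.2).mp hp
  rwa [h3] at h2

end Fermat.Agent.Cor.PIT
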