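import Fermat.Agent.Corollaries.PIT.Defs
import Fermat.Agent.Corollaries.PIT.VerIdeal

set_option autoImplicit false

/-!
# The transfer of the Frobenius elements

`verStmt`: if `L/K` is unramified above `v`, then the transfer `G_K → Cl(L)` of the Artin map of `L`
maps the Frobenius elements at `v` to the class of `v 𝓞_L`.
-/

namespace Fermat.Agent.Cor.PIT

open IsDedekindDomain NumberField
open Fermat.Agent.Frob Fermat.Agent.FrobDensity Fermat.Agent.Minkowski
open Fermat.Agent.LT Fermat.Agent.LT.Tower.Fr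
open Fermat.Agent.Cor.Diff (GK FrobAt)
open Fermat.Agent.Cor.CFTP (Lev cl restrHom restrHom_apply restrHom_eq_one_iff restrHom_surjective
  restrHom_inertia absNorm_eq_pow_fdeg)
open Fermat.Agent.CFT.Places (conj mem_conj below_conj conj_one)
open Fermat.Agent.LT.NV (edeg fdeg card_stab edeg_fdeg_eq)
open Fermat.Agent.LT.Psi (finite_under)
open scoped Pointwise

section Frob

variable {K L : Type*} [Field K] [NumberField K] [Field L] [NumberField L] [Algebra K L]
  [IsGalois K L] {j : L →+* AlgebraicClosure ℚ} {w : HeightOneSpectrum (𝓞 L)}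
  {A : ValuationSubring (AlgebraicClosure ℚ)}

/-- `ρ A` lies over `ρ w`. -/
theorem over_conj (hA : Over j A w) (ρ : GK (j.comp (algebraMap K L))) :
    Over j (ρ.1 • A) (conj (restrHom j ρ) w) := by
  rw [over_iff] at hA ⊢
  intro x
  rw [mem_conj, hA]
  have h1 : ρ.1 (j ((RingOfIntegers.mapRingEquiv ((restrHom j ρ : L ≃ₐ[K] L) : L ≃+* L)).symm x
      : 𝓞 L)) = j x := by
    rw [← restrHom_apply]
    congr 1
    exact (restrHom j ρ).apply_symm_apply (x : L)
  rw [← h1]
  exact mem_nonunits_smul_iff.symm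

/-- The order of the Frobenius of an unramified place is the residue degree. -/
theorem orderOf_restrHom (hA : Over j A w) (he : edeg K w = 1)
    {g : GK (j.comp (algebraMap K L))}
    (hg : A.IsFrobeniusAt g.1 (Ideal.absNorm (w.under (𝓞 K)).asIdeal)) :
    orderOf (restrHom j g) = fdeg K w := by
  obtain ⟨q, hq, hqw⟩ := exists_prime_mem w
  have hAq : A.LiesOverPrime q := hA.natCast_mem_iff.mp hqw
  have hN := absNorm_eq_pow_fdeg (K := K) w
  apply Nat.dvd_antisymm
  · apply orderOf_dvd_of_pow_eq_one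
    have hgf := isFrobeniusAt_pow hg (fdeg K w)
    rw [← hN] at hgf
    have h1 : redτ A ((gh (g.1 ^ fdeg K w)).comp j) = redτ A j := by
      ext x
      rw [redτ_frob hgf]
      exact hA.redτ_pow_absNorm x
    obtain ⟨τ, hτ, h2⟩ := Fermat.Agent.Classic.Disc.exists_inertia_of_redτ_eq hq hAq h1
    have h3 : ∀ x : L, τ ((g.1 ^ fdeg K w) (j x)) = j x := fun x => RingHom.congr_fun h2 x
    have hτK : τ ∈ GK (j.comp (algebraMap K L)) := by
      intro x
      have h4 := h3 (algebraMap K L x)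
      have h5 : (g.1 ^ fdeg K w) (j (algebraMap K L x)) = j (algebraMap K L x) :=
        (g ^ fdeg K w).2 x
      rwa [h5] at h4
    have h4 : restrHom j (⟨τ, hτK⟩ * g ^ fdeg K w) = 1 := by
      rw [restrHom_eq_one_iff]
      exact h3
    rwa [map_mul, restrHom_inertia (K := K) j hA he hτ, one_mul, map_pow] at h4
  · set m := orderOf (restrHom j g) with hm
    have hgm := isFrobeniusAt_pow hg m
    have hfix : ∀ x : L, (g.1 ^ m) (j x) = j x := by
      have h1 : restrHom j (g ^ m) = 1 := by rw [map_pow, hm, pow_orderOf_eq_one]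
      rw [restrHom_eq_one_iff] at h1
      exact h1
    have hcomp : (gh (g.1 ^ m)).comp j = j := RingHom.ext hfix
    have h1 : ∀ x : 𝓞 L ⧸ w.asIdeal, x ^ Ideal.absNorm (w.under (𝓞 K)).asIdeal ^ m = x := by
      intro x
      obtain ⟨x, rfl⟩ := Ideal.Quotient.mk_surjective x
      rw [← map_pow, Ideal.Quotient.eq, hA.mem_iff, map_sub, map_pow, sub_eq_zero,
        ← redτ_frob hgm, hcomp]
    let _ := fieldQuot w
    obtain ⟨y, hy⟩ := IsCyclic.exists_ofOrder_eq_natCard (α := (𝓞 L ⧸ w.asIdeal)ˣ)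
    have h2 : orderOf y = Ideal.absNorm w.asIdeal - 1 := by
      rw [hy, Nat.card_units, natCard_quot]
    set N := Ideal.absNorm (w.under (𝓞 K)).asIdeal with hNdef
    have hNv : 1 < N := by
      obtain ⟨q', hq', hqv⟩ := exists_prime_mem (w.under (𝓞 K))
      obtain ⟨f, hf, hfN⟩ := exists_absNorm_eq_pow hq' hqv
      rw [hNdef, hfN]
      exact Nat.one_lt_pow hf.ne' hq'.one_lt
    have h3 : y ^ (N ^ m - 1) = 1 := by
      have h4 : y ^ N ^ m = y := Units.ext (by rw [Units.val_pow_eq_pow_val]; exact h1 y)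
      have h5 : y ^ (N ^ m - 1) * y = y := by
        rw [← pow_succ, Nat.sub_add_cancel (Nat.one_le_pow _ _ (by omega)), h4]
      exact mul_eq_right.mp h5
    have h4 : N ^ fdeg K w - 1 ∣ N ^ m - 1 := by
      rw [← hN, ← h2]
      exact orderOf_dvd_of_pow_eq_one h3
    have h6 := Nat.pow_sub_one_gcd_pow_sub_one N (fdeg K w) m
    rw [Nat.gcd_eq_left h4] at h6
    have h7 : N ^ fdeg K w = N ^ Nat.gcd (fdeg K w) m := by
      have h8 := Nat.one_le_pow (fdeg K w) N (by omega)
      have h9 := Nat.one_le_pow (Nat.gcd (fdeg K w) m) N (by omega)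
      omega
    have h10 : fdeg K w = Nat.gcd (fdeg K w) m := Nat.pow_right_injective hNv h7
    rw [h10]
    exact Nat.gcd_dvd_right _ m

/-- Frobenius elements fix the place. -/
theorem conj_restrHom_eq (hA : Over j A w) {g : GK (j.comp (algebraMap K L))} {q : ℕ}
    (hg : A.IsFrobeniusAt g.1 q) : conj (restrHom j g) w = w := by
  have h1 := over_conj (K := K) hA g
  have h2 : g.1 • A = A := mem_decomposition_iff.mp hg.mem_decompositionSubgroup
  rw [h2] at h1
  exact h1.unique hA

/-- The stabilizer of an unramified place is generated by the Frobenius. -/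
theorem exists_pow_of_conj_eq (hA : Over j A w) (he : edeg K w = 1)
    {g : GK (j.comp (algebraMap K L))}
    (hg : A.IsFrobeniusAt g.1 (Ideal.absNorm (w.under (𝓞 K)).asIdeal)) {τ : L ≃ₐ[K] L}
    (hτ : conj τ w = w) : ∃ k : ℤ, restrHom j g ^ k = τ := by
  classical
  let S : Subgroup (L ≃ₐ[K] L) :=
    { carrier := {σ | conj σ w = w}
      one_mem' := conj_one w
      mul_mem' := fun {a b} ha hb => by
        change conj (a * b) w = w
        rw [Fermat.Agent.CFT.Places.conj_mul, show conj b w = w from hb]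
        exact ha
      inv_mem' := fun {a} ha => by
        change conj a⁻¹ w = w
        have h1 : conj a w = w := ha
        conv_lhs => rw [← h1]
        rw [← Fermat.Agent.CFT.Places.conj_mul, inv_mul_cancel, conj_one] }
  have hcard : Nat.card S = fdeg K w := by
    have h := card_stab (K := K) w
    rw [he, one_mul] at h
    exact h
  have hle : Subgroup.zpowers (restrHom j g) ≤ S := by
    rw [Subgroup.zpowers_le]
    exact conj_restrHom_eq hA hg
  have heq : Subgroup.zpowers (restrHom j g) = S := by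
    apply Subgroup.eq_of_le_of_card_ge hle
    rw [hcard, Nat.card_zpowers, orderOf_restrHom hA he hg]
  have h1 : τ ∈ Subgroup.zpowers (restrHom j g) := by
    rw [heq]
    exact hτ
  exact Subgroup.mem_zpowers_iff.mp h1

/-- Powers of the Frobenius fix the place. -/
theorem conj_zpow_restrHom_eq (hA : Over j A w) {g : GK (j.comp (algebraMap K L))} {q : ℕ}
    (hg : A.IsFrobeniusAt g.1 q) (k : ℤ) : conj (restrHom j g ^ k) w = w := by
  have h0 := conj_restrHom_eq (K := K) hA hg
  have h1 : ∀ n : ℕ, conj (restrHom j g ^ n) w = w := by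
    intro n
    induction n with
    | zero => rw [pow_zero, conj_one]
    | succ n ih => rw [pow_succ, Fermat.Agent.CFT.Places.conj_mul, h0, ih]
  have h2 : ∀ n : ℕ, conj (restrHom j g ^ n)⁻¹ w = w := by
    intro n
    conv_lhs => rw [← h1 n]
    rw [← Fermat.Agent.CFT.Places.conj_mul, inv_mul_cancel, conj_one]
  cases k with
  | ofNat n =>
    rw [Int.ofNat_eq_natCast, zpow_natCast]
    exact h1 n
  | negSucc n =>
    rw [zpow_negSucc]
    exact h2 _

end Frob

/-- The transfer of the Frobenius elements at `v` is the product of the classes of the places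
above `v` (unramified case). -/
theorem transfer_eq {K L : Type*} [Field K] [NumberField K] [Field L] [NumberField L]
    [Algebra K L] [IsGalois K L] (j : L →+* AlgebraicClosure ℚ) (A' : GK j →* ClassGroup (𝓞 L))
    (hA' : ∀ w : HeightOneSpectrum (𝓞 L), ∀ g : GK j, FrobAt g w → A' g = cl w)
    [(sub (K := K) j).FiniteIndex] (v : HeightOneSpectrum (𝓞 K))
    (hunr : ∀ w : HeightOneSpectrum (𝓞 L), w.under (𝓞 K) = v → edeg K w = 1)
    (g : GK (j.comp (algebraMap K L))) (hg : FrobAt g v) :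
    MonoidHom.transfer (A'.comp (toGK (K := K) j)) g =
      ∏ w ∈ (finite_under (L := L) v).toFinset, cl w := by
  classical
  obtain ⟨A, hA, hF⟩ := hg
  obtain ⟨q, hq, hqv⟩ := exists_prime_mem v
  have hAq : A.LiesOverPrime q := hA.natCast_mem_iff.mp hqv
  obtain ⟨w₀, hw₀⟩ := exists_over_of_liesOver j hq hAq
  have hwv : w₀.under (𝓞 K) = v := hw₀.under.unique hA
  have he := hunr w₀ hwv
  rw [← hwv] at hF
  have hord : orderOf (restrHom (K := K) j g) = fdeg K w₀ := orderOf_restrHom hw₀ he hF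
  have hmem : ∀ x : GK (j.comp (algebraMap K L)), x ∈ sub (K := K) j ↔ restrHom j x = 1 := by
    intro x
    rw [restrHom_eq_one_iff]
    exact Subgroup.mem_subgroupOf
  have hcoe : ∀ (x y : GK (j.comp (algebraMap K L))),
      ((x : GK (j.comp (algebraMap K L)) ⧸ sub (K := K) j) = y) ↔ restrHom j x = restrHom j y := by
    intro x y
    rw [QuotientGroup.eq, hmem, map_mul, map_inv, inv_mul_eq_one]
  let W : GK (j.comp (algebraMap K L)) → HeightOneSpectrum (𝓞 L) :=
    fun ρ => conj (restrHom (K := K) j ρ⁻¹) w₀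
  have hWv : ∀ ρ, (W ρ).under (𝓞 K) = v := fun ρ => by
    rw [below_conj, hwv]
  have hWo : ∀ ρ : GK (j.comp (algebraMap K L)), Over j (ρ.1⁻¹ • A) (W ρ) :=
    fun ρ => over_conj hw₀ ρ⁻¹
  have hper : ∀ x : GK (j.comp (algebraMap K L)) ⧸ sub (K := K) j,
      Function.minimalPeriod (g • ·) x = fdeg K w₀ := by
    intro x
    obtain ⟨ρ, rfl⟩ := QuotientGroup.mk_surjective x
    have h1 : ∀ n : ℕ, Function.minimalPeriod (g • ·)
        (ρ : GK (j.comp (algebraMap K L)) ⧸ sub (K := K) j) ∣ n ↔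
          orderOf (restrHom (K := K) j g) ∣ n := by
      intro n
      rw [← MulAction.pow_smul_eq_iff_minimalPeriod_dvd, orderOf_dvd_iff_pow_eq_one]
      change (((g ^ n * ρ : GK (j.comp (algebraMap K L))) :
        GK (j.comp (algebraMap K L)) ⧸ sub (K := K) j) = ρ) ↔ _
      rw [hcoe, map_mul, mul_eq_right, map_pow]
    rw [← hord]
    exact Nat.dvd_antisymm ((h1 _).mpr dvd_rfl) ((h1 _).mp dvd_rfl)
  have hval : ∀ (ρ : GK (j.comp (algebraMap K L))) (n : ℕ), n = fdeg K w₀ →
      ∀ h : ρ⁻¹ * g ^ n * ρ ∈ sub (K := K) j, A'.comp (toGK (K := K) j) ⟨_, h⟩ = cl (W ρ) := by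
    rintro ρ _ rfl h
    refine hA' (W ρ) _ ⟨ρ.1⁻¹ • A, hWo ρ, ?_⟩
    have h1 := isFrobeniusAt_conj (g := ρ.1⁻¹) (isFrobeniusAt_pow hF (fdeg K w₀))
    rw [← absNorm_eq_pow_fdeg] at h1
    have h2 : Ideal.absNorm (W ρ).asIdeal = Ideal.absNorm w₀.asIdeal :=
      CFTP.absNorm_eq_of_under_eq (K := K) (by rw [hWv, hwv])
    rw [h2]
    rw [inv_inv] at h1
    exact h1
  have hWk : ∀ (ρ ρ' : GK (j.comp (algebraMap K L))) (k : ℤ),
      restrHom (K := K) j ρ' = restrHom (K := K) j g ^ k * restrHom j ρ → W ρ' = W ρ := by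
    intro ρ ρ' k hk
    change conj (restrHom (K := K) j ρ'⁻¹) w₀ = conj (restrHom (K := K) j ρ⁻¹) w₀
    rw [map_inv, hk, mul_inv_rev, Fermat.Agent.CFT.Places.conj_mul, ← zpow_neg,
      conj_zpow_restrHom_eq hw₀ hF, map_inv]
  have hWinj : ∀ ρ ρ' : GK (j.comp (algebraMap K L)), W ρ = W ρ' →
      ∃ k : ℤ, restrHom (K := K) j ρ' = restrHom (K := K) j g ^ k * restrHom j ρ := by
    intro ρ ρ' h
    have h1 : conj (restrHom (K := K) j ρ⁻¹) w₀ = conj (restrHom (K := K) j ρ'⁻¹) w₀ := h
    have h2 : conj (restrHom (K := K) j ρ' * restrHom (K := K) j ρ⁻¹) w₀ = w₀ := by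
      rw [Fermat.Agent.CFT.Places.conj_mul, h1, ← Fermat.Agent.CFT.Places.conj_mul, ← map_mul,
        mul_inv_cancel, map_one, conj_one]
    obtain ⟨k, hk⟩ := exists_pow_of_conj_eq hw₀ he hF h2
    refine ⟨k, ?_⟩
    rw [hk, mul_assoc, ← map_mul, inv_mul_cancel, map_one, mul_one]
  let _ : Fintype (Quotient (MulAction.orbitRel (Subgroup.zpowers g)
    (GK (j.comp (algebraMap K L)) ⧸ sub (K := K) j))) := Fintype.ofFinite _
  rw [MonoidHom.transfer_eq_prod_quotient_orbitRel_zpowers_quot]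
  refine Finset.prod_bij (fun x _ => W x.out.out) ?_ ?_ ?_ ?_
  · intro x _
    rw [Set.Finite.mem_toFinset, Set.mem_ofPred_eq]
    exact hWv _
  · intro x _ y _ hxy
    obtain ⟨k, hk⟩ := hWinj _ _ hxy
    have h1 : (g ^ k : GK (j.comp (algebraMap K L))) • x.out = y.out := by
      rw [← QuotientGroup.out_eq' x.out, ← QuotientGroup.out_eq' y.out]
      change (((g ^ k * x.out.out : GK (j.comp (algebraMap K L))) :
        GK (j.comp (algebraMap K L)) ⧸ sub (K := K) j) = y.out.out)
      rw [hcoe, map_mul, map_zpow, hk]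
    rw [← Quotient.out_eq x, ← Quotient.out_eq y]
    symm
    apply Quotient.sound
    change y.out ∈ MulAction.orbit (Subgroup.zpowers g) x.out
    exact ⟨⟨g ^ k, Subgroup.zpow_mem_zpowers g k⟩, h1⟩
  · intro w hw
    rw [Set.Finite.mem_toFinset, Set.mem_ofPred_eq] at hw
    obtain ⟨τ, hτ⟩ := Fermat.Agent.LT.Psi.exists_conj_eq (K := K) (hwv.trans hw.symm)
    obtain ⟨σ, hσ⟩ := restrHom_surjective (K := K) j τ
    refine ⟨Quotient.mk _ ((σ⁻¹ : GK (j.comp (algebraMap K L))) :
      GK (j.comp (algebraMap K L)) ⧸ sub (K := K) j), Finset.mem_univ _, ?_⟩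
    set x : Quotient (MulAction.orbitRel (Subgroup.zpowers g)
      (GK (j.comp (algebraMap K L)) ⧸ sub (K := K) j)) := Quotient.mk _
        ((σ⁻¹ : GK (j.comp (algebraMap K L))) : GK (j.comp (algebraMap K L)) ⧸ sub (K := K) j)
      with hx
    have h1 : x.out ∈ MulAction.orbit (Subgroup.zpowers g)
        ((σ⁻¹ : GK (j.comp (algebraMap K L))) : GK (j.comp (algebraMap K L)) ⧸ sub (K := K) j) :=
      Quotient.mk_out (s := MulAction.orbitRel (Subgroup.zpowers g)
        (GK (j.comp (algebraMap K L)) ⧸ sub (K := K) j)) _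
    obtain ⟨⟨y, hy⟩, h2⟩ := h1
    obtain ⟨k, rfl⟩ := Subgroup.mem_zpowers_iff.mp hy
    have h3 : restrHom (K := K) j x.out.out = restrHom (K := K) j g ^ k * restrHom j σ⁻¹ := by
      rw [← map_zpow, ← map_mul, ← hcoe, QuotientGroup.out_eq']
      exact h2.symm
    have h4 := hWk _ _ k h3
    rw [h4]
    change conj (restrHom (K := K) j σ⁻¹⁻¹) w₀ = w
    rw [inv_inv, hσ, hτ]
  · intro x _
    exact hval _ _ (hper _) _

/-- **(V)** -/
theorem verStmt : VerStmt := by
  intro K L _ _ _ _ _ _ j A' hA' hFI v hunr g hg htr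
  exact isPrincipal_map_of v hunr ((transfer_eq j A' hA'.2.2 v hunr g hg).symm.trans htr)

end Fermat.Agent.Cor.PIT
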