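import Fermat.Agent.Corollaries.PIT.Intr
import Fermat.Agent.Corollaries.PIT.Comm
import Fermat.Agent.Corollaries.PIT.Ver
import Fermat.Agent.Corollaries.PIT.VerIdeal
import Fermat.Agent.Corollaries.HCF.Main

set_option autoImplicit false

/-!
# The principal ideal theorem (Hilbert's conjecture, Furtwängler 1930)

`K` a totally complex number field, `L` its Hilbert class field: every ideal of `K` becomes
principal in `L`.
-/

namespace Fermat.Agent.Cor.PIT

open IsDedekindDomain NumberField
open Fermat.Agent.Cor.CFTP (cl)

/-- (V), from `transfer_eq` and `isPrincipal_map_of` -/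
theorem verStmt_main : VerStmt := fun _ _ _ _ _ _ _ _ j A' hA' _ v h g hg h1 =>
  isPrincipal_map_of v h (by rw [← h1, transfer_eq j A' hA'.2.2 v h g hg])

theorem artinStmt : ArtinStmt := fun _ _ _ _ i =>
  HCF.exists_artinMap (fun p k _ => HCF.ex p k) i

/-- **The principal ideal theorem.**  Every totally complex number field `K` has a Galois extension
`L` (the Hilbert class field), unramified at all finite places, with an isomorphism
`Gal(L/K) ≃ Cl(K)` which maps every Frobenius element at `w` to the class of the place under `w`,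
such that a place of `K` splits completely in `L` if and only if it is principal, and such that
**every ideal of `K` becomes principal in `L`**. -/
theorem principal_ideal_theorem (K : Type) [Field K] [NumberField K] [IsTotallyComplex K] :
    ∃ (L : Type) (_ : Field L) (_ : NumberField L) (_ : Algebra K L) (_ : IsGalois K L)
      (e : (L ≃ₐ[K] L) ≃* ClassGroup (𝓞 K)),
      (∀ w : HeightOneSpectrum (𝓞 L),
        (w.under (𝓞 K)).asIdeal.ramificationIdx' w.asIdeal = 1) ∧
      (∀ (w : HeightOneSpectrum (𝓞 L)) (σ : L ≃ₐ[K] L), IsArithFrobAt (𝓞 K) σ w.asIdeal →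
        e σ = cl (w.under (𝓞 K))) ∧
      (∀ w : HeightOneSpectrum (𝓞 L), (w.under (𝓞 K)).asIdeal.inertiaDeg' w.asIdeal = 1 ↔
        (w.under (𝓞 K)).asIdeal.IsPrincipal) ∧
      ∀ I : Ideal (𝓞 K), (I.map (algebraMap (𝓞 K) (𝓞 L))).IsPrincipal :=
  main_of artinStmt transferStmt (commStmt convStmt) verStmt_main K

/-- **The principal ideal theorem**, intrinsic form: `K` totally complex, `L / K` abelian,
unramified at the finite places, of degree `h(K)`: every ideal of `K` becomes principal in `L`. -/
theorem isPrincipal_map {K : Type} [Field K] [NumberField K] [IsTotallyComplex K] {L : Type*}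
    [Field L] [NumberField L] [Algebra K L] [IsAbelianGalois K L]
    (h : ∀ w : HeightOneSpectrum (𝓞 L), (w.asIdeal.under (𝓞 K)).ramificationIdx' w.asIdeal = 1)
    (hdeg : Module.finrank K L = classNumber K) (I : Ideal (𝓞 K)) :
    (I.map (algebraMap (𝓞 K) (𝓞 L))).IsPrincipal :=
  isPrincipal_map_of_main principal_ideal_theorem h hdeg I

/-- All ideals of `K` become principal in an extension of degree `h(K)`. -/
theorem exists_finrank_eq_classNumber (K : Type) [Field K] [NumberField K] [IsTotallyComplex K] :
    ∃ (L : Type) (_ : Field L) (_ : NumberField L) (_ : Algebra K L),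
      Module.finrank K L = classNumber K ∧
      ∀ I : Ideal (𝓞 K), ∃ a : 𝓞 L, I.map (algebraMap (𝓞 K) (𝓞 L)) = Ideal.span {a} := by
  obtain ⟨L, fL, nL, aL, gL, e, -, -, -, h⟩ := principal_ideal_theorem K
  refine ⟨L, fL, nL, aL, ?_, fun I => ?_⟩
  · rw [← IsGalois.card_aut_eq_finrank, Nat.card_congr e.toEquiv, Nat.card_eq_fintype_card]
    rfl
  · obtain ⟨a, ha⟩ := (h I).principal
    exact ⟨a, ha⟩

end Fermat.Agent.Cor.PIT
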