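import Fermat.Agent.Corollaries.PIT.Main

set_option autoImplicit false

/-!
# Extensions in which all ideals become principal: the degree

* `pow_finrank_eq_one`: all ideals of `K` become principal in `M`: `c ^ [M : K] = 1` in `Cl(K)`;
* `classNumber_dvd_finrank`: if moreover `Cl(K)` is cyclic, then `h(K)` divides `[M : K]`: the degree
  `h(K)` of the Hilbert class field is the least possible (`isLeast_degree`).
-/

namespace Fermat.Agent.Cor.PIT

open NumberField
open scoped nonZeroDivisors

variable {K M : Type*} [Field K] [NumberField K] [Field M] [NumberField M] [Algebra K M]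

/-- If all ideals of `K` become principal in `M` then `[M : K]` kills the class group of `K`. -/
theorem pow_finrank_eq_one
    (h : ∀ I : Ideal (𝓞 K), (I.map (algebraMap (𝓞 K) (𝓞 M))).IsPrincipal)
    (c : ClassGroup (𝓞 K)) : c ^ Module.finrank K M = 1 := by
  obtain ⟨I, rfl⟩ := ClassGroup.mk0_surjective c
  rw [← map_pow, ClassGroup.mk0_eq_one_iff]
  change ((I : Ideal (𝓞 K)) ^ Module.finrank K M).IsPrincipal
  have h1 := Ideal.relNorm_algebraMap (𝓞 M) (I : Ideal (𝓞 K))
  rw [IsFractionRing.finrank_eq (𝓞 K) K (𝓞 M) M, ← h1]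
  obtain ⟨a, ha⟩ := (h I).principal
  rw [Ideal.submodule_span_eq] at ha
  rw [ha, Ideal.relNorm_singleton]
  exact ⟨⟨_, rfl⟩⟩

/-- If all ideals of `K` become principal in `M` and the class group of `K` is cyclic, then `h(K)`
divides `[M : K]`. -/
theorem classNumber_dvd_finrank [IsCyclic (ClassGroup (𝓞 K))]
    (h : ∀ I : Ideal (𝓞 K), (I.map (algebraMap (𝓞 K) (𝓞 M))).IsPrincipal) :
    classNumber K ∣ Module.finrank K M := by
  obtain ⟨c, hc⟩ := IsCyclic.exists_ofOrder_eq_natCard (α := ClassGroup (𝓞 K))
  rw [classNumber, ← Nat.card_eq_fintype_card, ← hc]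
  exact orderOf_dvd_of_pow_eq_one (pow_finrank_eq_one h c)

/-- `K` totally complex with a cyclic class group: `h(K)` is the least degree of an extension in
which all ideals of `K` become principal. -/
theorem isLeast_degree (K : Type) [Field K] [NumberField K] [IsTotallyComplex K]
    [IsCyclic (ClassGroup (𝓞 K))] :
    IsLeast {n | ∃ (M : Type) (_ : Field M) (_ : NumberField M) (_ : Algebra K M),
      Module.finrank K M = n ∧
        ∀ I : Ideal (𝓞 K), (I.map (algebraMap (𝓞 K) (𝓞 M))).IsPrincipal} (classNumber K) := by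
  constructor
  · obtain ⟨L, fL, nL, aL, h1, h2⟩ := exists_finrank_eq_classNumber K
    refine ⟨L, fL, nL, aL, h1, fun I => ?_⟩
    obtain ⟨a, ha⟩ := h2 I
    exact ⟨⟨a, ha⟩⟩
  · rintro n ⟨M, fM, nM, aM, rfl, h⟩
    exact Nat.le_of_dvd Module.finrank_pos (classNumber_dvd_finrank h)

end Fermat.Agent.Cor.PIT
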