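import Fermat.Agent.Corollaries.PIT.Defs
import Fermat.Agent.Corollaries.PIT.Group

set_option autoImplicit false

/-!
# The transfer into the commutator subgroup is trivial

* `transfer_eq_one`: `N ≤ H` normal subgroups of finite index of `G` with `[G, G] ≤ H ≤ [G, G] N`,
  `φ : H → A` a homomorphism to a commutative group, trivial on `N`: the transfer of `φ` is trivial.
* `transfer_commutator`: **Furtwängler's theorem**: `G` finite, the transfer of every homomorphism
  `[G, G] → A` to a commutative group is trivial.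
-/

namespace Fermat.Agent.Cor.PIT

open MonoidAlgebra Subgroup

section Shift

variable (Q B : Type*) [CommGroup Q] [AddCommGroup B]

/-- the functions on `Q`, with the translations -/
def shift : Representation ℤ Q (Q → B) where
  toFun q :=
    { toFun := fun f x => f (q * x)
      map_add' := fun _ _ => rfl
      map_smul' := fun _ _ => rfl }
  map_one' := by
    ext f x
    change f (1 * x) = f x
    rw [one_mul]
  map_mul' q r := by
    ext f x
    change f (q * r * x) = f (r * (q * x))
    rw [mul_comm q r, mul_assoc]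

/-- the functions on `Q` as a `ℤ[Q]`-module -/
def Fn : Type _ := Q → B

noncomputable instance : AddCommGroup (Fn Q B) := inferInstanceAs (AddCommGroup (Q → B))

noncomputable instance : Module (MonoidAlgebra ℤ Q) (Fn Q B) :=
  inferInstanceAs (Module (MonoidAlgebra ℤ Q) (shift Q B).asModule)

variable {Q B}

lemma Fn.smul_apply (q : Q) (f : Fn Q B) (x : Q) : (of ℤ Q q • f) x = f (q * x) := by
  change (Representation.asAlgebraHom (shift Q B) (of ℤ Q q)) f x = _
  rw [Representation.asAlgebraHom_of]
  rfl

omit [CommGroup Q] in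
lemma Fn.add_apply (f f' : Fn Q B) (x : Q) : (f + f') x = f x + f' x := rfl

lemma Fn.sum_apply {ι : Type*} (s : Finset ι) (f : ι → Fn Q B) (x : Q) :
    (∑ i ∈ s, f i) x = ∑ i ∈ s, f i x := by
  classical
  induction s using Finset.induction_on with
  | empty => rfl
  | insert a s ha ih => rw [Finset.sum_insert ha, Finset.sum_insert ha, Fn.add_apply, ih]

end Shift

/-- The transfer into a subgroup between `[G, G]` and `[G, G] N` is trivial. -/
theorem transfer_eq_one {G : Type*} [Group G] (H N : Subgroup G) [hH : H.Normal] [hNn : N.Normal]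
    [H.FiniteIndex] [N.FiniteIndex] (hNH : N ≤ H) (hcH : commutator G ≤ H)
    (hHc : H ≤ commutator G ⊔ N) {A : Type*} [CommGroup A] (φ : H →* A)
    (hφ : ∀ n : H, n.1 ∈ N → φ n = 1) (g : G) : MonoidHom.transfer φ g = 1 := by
  classical
  have hcomm : ∀ a b : G ⧸ H, a * b = b * a := by
    intro a b
    induction a using QuotientGroup.induction_on with
    | H a =>
    induction b using QuotientGroup.induction_on with
    | H b =>
    rw [← QuotientGroup.mk_mul, ← QuotientGroup.mk_mul, QuotientGroup.eq]
    have h1 : b⁻¹ * a⁻¹ * b⁻¹⁻¹ * a⁻¹⁻¹ ∈ H :=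
      hcH (Subgroup.commutator_mem_commutator (mem_top _) (mem_top _))
    rwa [inv_inv, inv_inv, ← mul_inv_rev, mul_assoc] at h1
  let _ : CommGroup (G ⧸ H) := { (inferInstance : Group (G ⧸ H)) with mul_comm := hcomm }
  let _ : Fintype (G ⧸ H) := H.fintypeQuotientOfFiniteIndex
  let T : H.LeftTransversal := default
  let α : G ⧸ H → G := fun q => (T.2.leftQuotientEquiv q : G)
  have hα : ∀ q, (α q : G ⧸ H) = q := fun q => T.2.quotientGroupMk_leftQuotientEquiv q
  let π : G →* G ⧸ H := QuotientGroup.mk' H
  have hmem : ∀ (g : G) (q : G ⧸ H), (α (π g * q))⁻¹ * (g * α q) ∈ H := by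
    intro g q
    rw [← QuotientGroup.eq, hα, QuotientGroup.mk_mul, hα]
    rfl
  let B := Additive A
  let D : G → Fn (G ⧸ H) B := fun g q => Additive.ofMul (φ ⟨(α (π g * q))⁻¹ * (g * α q), hmem g q⟩)
  have hD : IsCr π D := by
    intro g h
    funext q
    rw [Fn.add_apply, Fn.smul_apply]
    change Additive.ofMul (φ _) = Additive.ofMul (φ _) + Additive.ofMul (φ _)
    rw [← ofMul_mul, ← map_mul]
    congr 2
    apply Subtype.ext
    change (α (π (g * h) * q))⁻¹ * (g * h * α q) =
      ((α (π g * (π h * q)))⁻¹ * (g * α (π h * q))) * ((α (π h * q))⁻¹ * (h * α q))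
    rw [map_mul, mul_assoc (π g)]
    group
  have hDN : ∀ n ∈ N, D n = 0 := by
    intro n hn
    funext q
    change Additive.ofMul (φ _) = 0
    rw [hφ, ofMul_one]
    change (α (π n * q))⁻¹ * (n * α q) ∈ N
    have h1 : π n = 1 := (QuotientGroup.eq_one_iff n).mpr (hNH hn)
    rw [h1, one_mul, ← mul_assoc]
    have h2 := hNn.conj_mem n hn (α q)⁻¹
    rwa [inv_inv] at h2
  have hker : π.ker = H := QuotientGroup.ker_mk' H
  have h1 := norm_smul_eq_zero (QuotientGroup.mk'_surjective H) N (by rw [hker]; exact hNH)
    (by rw [hker]; exact hHc) hD hDN g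
  have h2 : ∑ q : G ⧸ H, D g q = 0 := by
    have h3 := congrFun h1 1
    rw [Finset.sum_smul, Fn.sum_apply] at h3
    simp_rw [Fn.smul_apply, mul_one] at h3
    exact h3
  rw [MonoidHom.transfer_def φ T g]
  have h3 : leftTransversals.diff φ T (g • T) = ∏ q : G ⧸ H, (D g q).toMul := by
    rw [leftTransversals.diff]
    refine (Fintype.prod_equiv (MulAction.toPerm g) _ _ fun q => ?_).symm
    change φ _ = φ _
    congr 1
    apply Subtype.ext
    change (α (π g * q))⁻¹ * (g * α q) = (α (g • q))⁻¹ *
      ((g • T).2.leftQuotientEquiv (g • q) : G)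
    rw [smul_apply_eq_smul_apply_inv_smul, inv_smul_smul]
    congr 2
  rw [h3, ← toMul_sum, h2, toMul_zero]

/-- **Furtwängler's theorem**: `G` a finite group; the transfer of every homomorphism
`[G, G] → A` to a commutative group is trivial. -/
theorem transfer_commutator {G : Type*} [Group G] [Finite G] {A : Type*} [CommGroup A]
    (φ : commutator G →* A) (g : G) : MonoidHom.transfer φ g = 1 :=
  transfer_eq_one (commutator G) ⊥ bot_le le_rfl le_sup_left φ (fun n hn => by
    have h1 : n = 1 := Subtype.ext (Subgroup.mem_bot.mp hn)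
    rw [h1, map_one]) g

/-- **(T)** -/
theorem transferStmt : TransferStmt := fun _ _ H N _ _ _ _ h1 h2 h3 _ _ φ hφ g =>
  transfer_eq_one H N h1 h2 h3 φ hφ g

end Fermat.Agent.Cor.PIT
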